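import Fermat.Agent.S41.K.Red
import Fermat.Agent.S41.D.D1
import Fermat.Agent.S41.D.D2
import Fermat.Agent.S41.D.D3
import Fermat.Agent.S41.D.D4
import Fermat.Agent.S41.D.D5
import Fermat.Agent.S41.D.D6
import Fermat.Agent.S41.D.D7

/-!
# S41, module K, file Y: the class `y = a^* φ - ε b^* φ`; consequences of the identities of module D
on the lattices
-/

set_option autoImplicit false

open CongruenceSubgroup Matrix.SpecialLinearGroup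
open scoped MatrixGroups
open Fermat.Agent.Lib.EllPar (KillsEllPar ellParHoms)
open Fermat.Agent.GR Fermat.Agent.GR.B

namespace Fermat.Agent.S41.K

variable {N q : ℕ} [NeZero N] [Fact q.Prime] (p : ℕ) [Fact p.Prime]

/-- `y = a^* φ - ε b^* φ`. -/
noncomputable def yOf (ε : ℤ) (φ : ellParHoms (Gamma0 N) (ZMod p)) :
    ellParHoms (Gamma0 (N * q)) (ZMod p) :=
  (aUpC N q).opE (ZMod p) φ - (ε : ZMod p) • (bUpC N q).opE (ZMod p) φ

theorem Y_coe_yOf (ε : ℤ) (φ : ellParHoms (Gamma0 N) (ZMod p)) :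
    ((yOf (q := q) p ε φ : ellParHoms (Gamma0 (N * q)) (ZMod p)) :
      Additive (Gamma0 (N * q)) →+ ZMod p) =
      (aUpC N q).op (ZMod p) φ - (ε : ZMod p) • (bUpC N q).op (ZMod p) φ := rfl

theorem yOf_T (ε : ℤ) (φ : ellParHoms (Gamma0 N) (ZMod p)) (r : ℕ) [Fact r.Prime]
    (hrN : ¬ r ∣ N) (hrNq : ¬ r ∣ N * q) (c : ZMod p)
    (h : (repsT r hrN).toCorr.opE (ZMod p) φ = c • φ) :
    (repsT r hrNq).toCorr.opE (ZMod p) (yOf (q := q) p ε φ) = c • yOf (q := q) p ε φ := by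
  have h' : (repsT r hrN).op (ZMod p) (φ : Additive (Gamma0 N) →+ ZMod p) =
      c • (φ : Additive (Gamma0 N) →+ ZMod p) := by
    have := congrArg (Subtype.val) h
    rwa [Corr.coe_opE, Reps.toCorr_op] at this
  apply Subtype.ext
  rw [Corr.coe_opE, Submodule.coe_smul, Y_coe_yOf, map_sub, Corr.op_smul, Reps.toCorr_op,
    Reps.toCorr_op, ← aUp_T r hrN hrNq, ← bUp_T r hrN hrNq, h', Corr.op_smul, Corr.op_smul,
    smul_sub, smul_comm]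

theorem aDn_yOf (hqN : ¬ q ∣ N) (ε : ℤ) (hε : ε = 1 ∨ ε = -1)
    (φ : ellParHoms (Gamma0 N) (ZMod p))
    (h : (repsT q hqN).toCorr.opE (ZMod p) φ = ((ε * (q + 1) : ℤ) : ZMod p) • φ) :
    (aDnC N q).opE (ZMod p) (yOf (q := q) p ε φ) = 0 := by
  have h' : (repsT q hqN).op (ZMod p) (φ : Additive (Gamma0 N) →+ ZMod p) =
      ((ε * (q + 1) : ℤ) : ZMod p) • (φ : Additive (Gamma0 N) →+ ZMod p) := by
    have := congrArg (Subtype.val) h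
    rwa [Corr.coe_opE, Reps.toCorr_op] at this
  apply Subtype.ext
  rw [Corr.coe_opE, Y_coe_yOf, map_sub, Corr.op_smul, aDn_aUp hqN, aDn_bUp hqN, h', smul_smul,
    ← Nat.cast_smul_eq_nsmul (ZMod p), ← sub_smul]
  have h0 : (((q + 1 : ℕ) : ZMod p)) - (ε : ZMod p) * ((ε * (q + 1) : ℤ) : ZMod p) = 0 := by
    rcases hε with rfl | rfl <;> push_cast <;> ring
  rw [h0, zero_smul]
  rfl

theorem bDn_yOf (hqN : ¬ q ∣ N) (𝔴 : AL N q) (ε : ℤ) (hε : ε = 1 ∨ ε = -1)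
    (φ : ellParHoms (Gamma0 N) (ZMod p))
    (h : (repsT q hqN).toCorr.opE (ZMod p) φ = ((ε * (q + 1) : ℤ) : ZMod p) • φ) :
    𝔴.bDnC.opE (ZMod p) (yOf (q := q) p ε φ) = 0 := by
  have h' : (repsT q hqN).op (ZMod p) (φ : Additive (Gamma0 N) →+ ZMod p) =
      ((ε * (q + 1) : ℤ) : ZMod p) • (φ : Additive (Gamma0 N) →+ ZMod p) := by
    have := congrArg (Subtype.val) h
    rwa [Corr.coe_opE, Reps.toCorr_op] at this
  apply Subtype.ext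
  rw [Corr.coe_opE, Y_coe_yOf, AL.bDnC_op, map_sub, Corr.op_smul, 𝔴.bUp_eq, 𝔴.w_w, ← 𝔴.bUp_eq,
    map_sub, Corr.op_smul, aDn_aUp hqN, aDn_bUp hqN, h', ← Nat.cast_smul_eq_nsmul (ZMod p),
    smul_smul, ← sub_smul]
  have h0 : ((ε * (q + 1) : ℤ) : ZMod p) - (ε : ZMod p) * ((q + 1 : ℕ) : ZMod p) = 0 := by
    push_cast
    ring
  rw [h0, zero_smul]
  rfl

theorem aDn_T_L (hqN : ¬ q ∣ N) (r : ℕ) [Fact r.Prime] (hrN : ¬ r ∣ N) (hrNq : ¬ r ∣ N * q)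
    (x : Lam (N * q)) :
    (aDnC N q).opL ((repsT r hrNq).toCorr.opL x) =
      (repsT r hrN).toCorr.opL ((aDnC N q).opL x) := by
  apply Subtype.ext
  rw [Corr.coe_opL, Corr.coe_opL, Corr.coe_opL, Corr.coe_opL, Reps.toCorr_op, Reps.toCorr_op,
    aDn_T hqN r hrN hrNq]

theorem bDn_T_L (hqN : ¬ q ∣ N) (𝔴 : AL N q) (r : ℕ) [Fact r.Prime] (hrN : ¬ r ∣ N)
    (hrNq : ¬ r ∣ N * q) (x : Lam (N * q)) :
    𝔴.bDnC.opL ((repsT r hrNq).toCorr.opL x) = (repsT r hrN).toCorr.opL (𝔴.bDnC.opL x) := by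
  apply Subtype.ext
  rw [Corr.coe_opL, Corr.coe_opL, Corr.coe_opL, Corr.coe_opL, Reps.toCorr_op, Reps.toCorr_op,
    AL.bDnC_op, AL.bDnC_op, 𝔴.w_T r hrNq, aDn_T hqN r hrN hrNq]

/-- `U_q² = 1` on `ker a_* ∩ ker b_*`. -/
theorem U_U_eq (hqN : ¬ q ∣ N) (𝔴 : AL N q) (x : Lam (N * q)) (h₁ : (aDnC N q).opL x = 0)
    (h₂ : 𝔴.bDnC.opL x = 0) :
    (repsU q (Dvd.intro_left N rfl)).toCorr.opL
      ((repsU q (Dvd.intro_left N rfl)).toCorr.opL x) = x := by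
  have h₁' : (aDnC N q).op ℤ (x : Additive (Gamma0 (N * q)) →+ ℤ) = 0 := by
    have := congrArg (Subtype.val) h₁
    rwa [Corr.coe_opL] at this
  have h₂' : (aDnC N q).op ℤ (𝔴.corr.op ℤ (x : Additive (Gamma0 (N * q)) →+ ℤ)) = 0 := by
    have := congrArg (Subtype.val) h₂
    rwa [Corr.coe_opL, AL.bDnC_op] at this
  have e1 := 𝔴.aUp_aDn hqN (x : Additive (Gamma0 (N * q)) →+ ℤ)
  have e2 := 𝔴.aUp_aDn hqN (𝔴.corr.op ℤ (x : Additive (Gamma0 (N * q)) →+ ℤ))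
  rw [h₁', map_zero] at e1
  rw [h₂', map_zero, 𝔴.w_w] at e2
  have e3 : 𝔴.corr.op ℤ (x : Additive (Gamma0 (N * q)) →+ ℤ) =
      -(repsU q (Dvd.intro_left N rfl)).op ℤ (x : Additive (Gamma0 (N * q)) →+ ℤ) :=
    eq_neg_of_add_eq_zero_left e2.symm
  rw [e3, map_neg] at e1
  apply Subtype.ext
  rw [Corr.coe_opL, Corr.coe_opL, Reps.toCorr_op, Reps.toCorr_op]
  exact (sub_eq_zero.mp (by rw [← sub_eq_add_neg] at e1; exact e1.symm)).symm

end Fermat.Agent.S41.K
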