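import Fermat.Agent.S41.K.Adj
import Fermat.Agent.S41.K.Y
import Fermat.Agent.S41.C.Main
import Fermat.Agent.S41.D.Index

/-!
# S41, module K, file Main: existence of the lattice vector of level `N q`
-/

set_option autoImplicit false

open CongruenceSubgroup Matrix.SpecialLinearGroup
open scoped MatrixGroups
open Fermat.Agent.Lib.EllPar (KillsEllPar ellParHoms)
open Fermat.Agent.GR Fermat.Agent.GR.B

namespace Fermat.Agent.S41.K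

theorem exists_lattice_vector (N : ℕ) [NeZero N] (p q : ℕ) [Fact p.Prime] [Fact q.Prime]
    (hp2 : p ≠ 2) (hqN : ¬ q ∣ N) (a : ℕ → ℤ) (good : ℕ → Prop)
    (hIE : ∀ z₁ z₂ : Additive (Gamma0 N) →+ ZMod p, Kills z₁ → Kills z₂ → InKer q z₁ z₂ →
      (∀ (ℓ : ℕ) [Fact ℓ.Prime] (hℓN : ¬ ℓ ∣ N), ¬ ℓ ∣ N * q → good ℓ →
        (repsT ℓ hℓN).op (ZMod p) z₁ = ((a ℓ : ℤ) : ZMod p) • z₁) →
      (∀ (ℓ : ℕ) [Fact ℓ.Prime] (hℓN : ¬ ℓ ∣ N), ¬ ℓ ∣ N * q → good ℓ →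
        (repsT ℓ hℓN).op (ZMod p) z₂ = ((a ℓ : ℤ) : ZMod p) • z₂) → z₁ = 0 ∧ z₂ = 0)
    (ε : ℤ) (hε : ε = 1 ∨ ε = -1) (φ : Additive (Gamma0 N) →+ ZMod p) (hφ : Kills φ)
    (hφ0 : φ ≠ 0)
    (hφT : ∀ (ℓ : ℕ) [Fact ℓ.Prime] (hℓN : ¬ ℓ ∣ N), good ℓ →
      (repsT ℓ hℓN).op (ZMod p) φ = ((a ℓ : ℤ) : ZMod p) • φ)
    (hφq : (repsT q hqN).op (ZMod p) φ = ((ε * (q + 1) : ℤ) : ZMod p) • φ) :
    ∃ x : Lam (N * q), (¬ ∃ y : Lam (N * q), x = (p : ℤ) • y) ∧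
      (∀ (ℓ : ℕ) (hℓ : ℓ.Prime) (hℓM : ¬ ℓ ∣ N * q), good ℓ →
        ∃ y : Lam (N * q), heckeLam (N * q) (H.HeckeFull.T hℓ hℓM) x - a ℓ • x = (p : ℤ) • y) ∧
      heckeLam (N * q) (genP (N * q) q Fact.out) (heckeLam (N * q) (genP (N * q) q Fact.out) x)
        = x := by
  classical
  obtain ⟨𝔴⟩ := nonempty_AL (N := N) (q := q) hqN
  have hfd : FiniteDimensional (ZMod p) (ellParHoms (Gamma0 N) (ZMod p)) :=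
    Fermat.Agent.Lib.EllPar.finiteDimensional_ellParHoms (Gamma0 N) (ZMod p)
  let ι := {ℓ : ℕ // ℓ.Prime ∧ ¬ ℓ ∣ N * q ∧ good ℓ}
  have hιN : ∀ ℓ : ι, ¬ ℓ.1 ∣ N := fun ℓ h => ℓ.2.2.1 (Dvd.dvd.mul_right h q)
  let φ' : ellParHoms (Gamma0 N) (ZMod p) := ⟨φ, hφ⟩
  have hφ'T : ∀ (ℓ : ℕ) [Fact ℓ.Prime] (hℓN : ¬ ℓ ∣ N), good ℓ →
      (repsT ℓ hℓN).toCorr.opE (ZMod p) φ' = ((a ℓ : ℤ) : ZMod p) • φ' := by
    intro ℓ _ hℓN hg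
    apply Subtype.ext
    rw [Corr.coe_opE, Reps.toCorr_op]
    exact hφT ℓ hℓN hg
  have hφ'q : (repsT q hqN).toCorr.opE (ZMod p) φ' = ((ε * (q + 1) : ℤ) : ZMod p) • φ' := by
    apply Subtype.ext
    rw [Corr.coe_opE, Reps.toCorr_op]
    exact hφq
  have hIE' : ∀ z₁ z₂ : ellParHoms (Gamma0 N) (ZMod p),
      (aUpC N q).opE (ZMod p) z₁ + (bUpC N q).opE (ZMod p) z₂ = 0 →
      (∀ ℓ : ι, (haveI : Fact ℓ.1.Prime := ⟨ℓ.2.1⟩; (repsT ℓ.1 (hιN ℓ)).toCorr.opE (ZMod p)) z₁ =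
        ((a ℓ.1 : ℤ) : ZMod p) • z₁) →
      (∀ ℓ : ι, (haveI : Fact ℓ.1.Prime := ⟨ℓ.2.1⟩; (repsT ℓ.1 (hιN ℓ)).toCorr.opE (ZMod p)) z₂ =
        ((a ℓ.1 : ℤ) : ZMod p) • z₂) → z₁ = 0 ∧ z₂ = 0 := by
    intro z₁ z₂ hz h₁ h₂
    have hker : InKer q (z₁ : Additive (Gamma0 N) →+ ZMod p) (z₂ : Additive (Gamma0 N) →+ ZMod p) :=
      (inKer_iff _ _).mpr (congrArg Subtype.val hz)
    obtain ⟨e₁, e₂⟩ := hIE z₁ z₂ z₁.2 z₂.2 hker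
      (fun ℓ _ hℓN hℓNq hg => by
        have := congrArg Subtype.val (h₁ ⟨ℓ, Fact.out, hℓNq, hg⟩)
        rw [Corr.coe_opE, Reps.toCorr_op] at this
        exact this)
      (fun ℓ _ hℓN hℓNq hg => by
        have := congrArg Subtype.val (h₂ ⟨ℓ, Fact.out, hℓNq, hg⟩)
        rw [Corr.coe_opE, Reps.toCorr_op] at this
        exact this)
    exact ⟨Subtype.ext e₁, Subtype.ext e₂⟩
  have hy0 : yOf (q := q) p ε φ' ≠ 0 := by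
    intro h0
    have h1 : (aUpC N q).opE (ZMod p) φ' + (bUpC N q).opE (ZMod p) ((-(ε : ZMod p)) • φ') = 0 := by
      have h2 : (aUpC N q).opE (ZMod p) φ' - (ε : ZMod p) • (bUpC N q).opE (ZMod p) φ' = 0 := h0
      rw [map_smul]
      rw [← h2]
      module
    obtain ⟨e₁, -⟩ := hIE' φ' ((-(ε : ZMod p)) • φ') h1
      (fun ℓ => by
        have : Fact ℓ.1.Prime := ⟨ℓ.2.1⟩
        exact hφ'T ℓ.1 (hιN ℓ) ℓ.2.2.2)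
      (fun ℓ => by
        have : Fact ℓ.1.Prime := ⟨ℓ.2.1⟩
        rw [map_smul, hφ'T ℓ.1 (hιN ℓ) ℓ.2.2.2, smul_comm])
    exact hφ0 (congrArg Subtype.val e₁)
  obtain ⟨x, hx₁, hx₂, hxy⟩ := C.main p (L := Lam N) (L' := Lam (N * q))
    (H := ellParHoms (Gamma0 N) (ZMod p)) (H' := ellParHoms (Gamma0 (N * q)) (ZMod p))
    (redL N p) (redL (N * q) p) (redL_surjective N p) (redL_surjective (N * q) p)
    (redL_eq_zero N p) (redL_eq_zero (N * q) p) (heckeLam N) (heckeLam (N * q))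
    (fun ℓ : ι => H.HeckeFull.T ℓ.2.1 (hιN ℓ)) (fun ℓ : ι => H.HeckeFull.T ℓ.2.1 ℓ.2.2.1)
    (fun ℓ : ι => a ℓ.1)
    (fun ℓ : ι => haveI : Fact ℓ.1.Prime := ⟨ℓ.2.1⟩; (repsT ℓ.1 (hιN ℓ)).toCorr.opE (ZMod p))
    (fun ℓ : ι => haveI : Fact ℓ.1.Prime := ⟨ℓ.2.1⟩; (repsT ℓ.1 ℓ.2.2.1).toCorr.opE (ZMod p))
    (fun ℓ v => by
      have : Fact ℓ.1.Prime := ⟨ℓ.2.1⟩
      exact redL_heckeLam_T N p (hιN ℓ) v)
    (fun ℓ v => by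
      have : Fact ℓ.1.Prime := ⟨ℓ.2.1⟩
      exact redL_heckeLam_T (N * q) p ℓ.2.2.1 v)
    (aDnC N q).opL 𝔴.bDnC.opL ((aDnC N q).opE (ZMod p)) (𝔴.bDnC.opE (ZMod p))
    ((aUpC N q).opE (ZMod p)) ((bUpC N q).opE (ZMod p))
    (fun x => redL_opL p _ x) (fun x => redL_opL p _ x)
    (fun ℓ x => by
      have : Fact ℓ.1.Prime := ⟨ℓ.2.1⟩
      have e1 := heckeLam_T_eq (N * q) ℓ.2.2.1 x
      have e2 := heckeLam_T_eq N (hιN ℓ) ((aDnC N q).opL x)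
      exact (congrArg _ e1).trans ((aDn_T_L hqN ℓ.1 (hιN ℓ) ℓ.2.2.1 x).trans e2.symm))
    (fun ℓ x => by
      have : Fact ℓ.1.Prime := ⟨ℓ.2.1⟩
      have e1 := heckeLam_T_eq (N * q) ℓ.2.2.1 x
      have e2 := heckeLam_T_eq N (hιN ℓ) (𝔴.bDnC.opL x)
      exact (congrArg _ e1).trans ((bDn_T_L hqN 𝔴 ℓ.1 (hιN ℓ) ℓ.2.2.1 x).trans e2.symm))
    (P.form (Gamma0 N) (ZMod p)) (P.form (Gamma0 (N * q)) (ZMod p))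
    (form_nondeg' p N hp2) (form_nondeg' p (N * q) hp2)
    (form_aUp_left p) (form_bUp_left p 𝔴)
    (fun ℓ φ ψ => by
      have : Fact ℓ.1.Prime := ⟨ℓ.2.1⟩
      exact form_T p (hιN ℓ) φ ψ)
    hIE' (yOf (q := q) p ε φ')
    (fun ℓ => by
      have : Fact ℓ.1.Prime := ⟨ℓ.2.1⟩
      exact yOf_T p ε φ' ℓ.1 (hιN ℓ) ℓ.2.2.1 _ (hφ'T ℓ.1 (hιN ℓ) ℓ.2.2.2))
    (aDn_yOf p hqN ε hε φ' hφ'q) (bDn_yOf p hqN 𝔴 ε hε φ' hφ'q)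
  have hpz : ∀ w : Lam (N * q), redL (N * q) p ((p : ℤ) • w) = 0 := by
    intro w
    rw [map_zsmul, ← Int.cast_smul_eq_zsmul (ZMod p)]
    simp
  refine ⟨x, ?_, ?_, ?_⟩
  · rintro ⟨w, rfl⟩
    exact hy0 (hxy.symm.trans (hpz w))
  · intro ℓ hℓ hℓM hg
    have : Fact ℓ.Prime := ⟨hℓ⟩
    have hℓN : ¬ ℓ ∣ N := fun h => hℓM (Dvd.dvd.mul_right h q)
    apply redL_eq_zero (N * q) p
    rw [map_sub, map_zsmul, redL_heckeLam_T (N * q) p hℓM x, hxy,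
      yOf_T p ε φ' ℓ hℓN hℓM _ (hφ'T ℓ hℓN hg),
      Int.cast_smul_eq_zsmul (ZMod p) (a ℓ) (yOf (q := q) p ε φ'), sub_self]
  · rw [heckeLam_U_eq (N * q) (Dvd.intro_left N rfl), heckeLam_U_eq (N * q) (Dvd.intro_left N rfl)]
    exact U_U_eq hqN 𝔴 x hx₁ hx₂

end Fermat.Agent.S41.K
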