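import Fermat.Agent.S41.K.Red
import Fermat.Agent.S41.P.Form
import Fermat.Agent.S41.D.D4
import Fermat.Agent.S41.D.D6

/-!
# S41, module K, file Adj: adjunction formulas for the degeneracy maps, self-adjointness of `T_ℓ`
-/

set_option autoImplicit false

open CongruenceSubgroup Matrix.SpecialLinearGroup
open scoped MatrixGroups
open Fermat.Agent.Lib.EllPar (KillsEllPar ellParHoms)
open Fermat.Agent.GR Fermat.Agent.GR.B

namespace Fermat.Agent.S41.K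

variable {N q : ℕ} [NeZero N] [Fact q.Prime] (p : ℕ) [Fact p.Prime]

theorem form_aUp_left (φ : ellParHoms (Gamma0 N) (ZMod p))
    (ψ : ellParHoms (Gamma0 (N * q)) (ZMod p)) :
    P.form (Gamma0 (N * q)) (ZMod p) ((aUpC N q).opE (ZMod p) φ) ψ =
      P.form (Gamma0 N) (ZMod p) φ ((aDnC N q).opE (ZMod p) ψ) := by
  symm
  apply P.form_eq_of_isPair
  exact P.IsPair.cores_right (Gamma0_mul_le N q) φ.2 ψ.2
    (P.form_isPair (Gamma0 (N * q)) (ZMod p) ((aUpC N q).opE (ZMod p) φ) ψ)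

theorem form_aUp_right (φ : ellParHoms (Gamma0 N) (ZMod p))
    (ψ : ellParHoms (Gamma0 (N * q)) (ZMod p)) :
    P.form (Gamma0 (N * q)) (ZMod p) ψ ((aUpC N q).opE (ZMod p) φ) =
      P.form (Gamma0 N) (ZMod p) ((aDnC N q).opE (ZMod p) ψ) φ := by
  symm
  apply P.form_eq_of_isPair
  exact P.IsPair.cores_left (Gamma0_mul_le N q) φ.2 ψ.2
    (P.form_isPair (Gamma0 (N * q)) (ZMod p) ψ ((aUpC N q).opE (ZMod p) φ))

theorem form_w_w (𝔴 : AL N q) (φ ψ : ellParHoms (Gamma0 (N * q)) (ZMod p)) :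
    P.form (Gamma0 (N * q)) (ZMod p) (𝔴.corr.opE (ZMod p) φ) (𝔴.corr.opE (ZMod p) ψ) =
      P.form (Gamma0 (N * q)) (ZMod p) φ ψ := by
  apply P.form_eq_of_isPair
  exact P.IsPair.conj_zmod (N * q) p 𝔴.w 𝔴.det_pos 𝔴.c 𝔴.hc φ.2 ψ.2
    (P.form_isPair (Gamma0 (N * q)) (ZMod p) φ ψ)

theorem form_bUp_left (𝔴 : AL N q) (φ : ellParHoms (Gamma0 N) (ZMod p))
    (ψ : ellParHoms (Gamma0 (N * q)) (ZMod p)) :
    P.form (Gamma0 (N * q)) (ZMod p) ((bUpC N q).opE (ZMod p) φ) ψ =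
      P.form (Gamma0 N) (ZMod p) φ (𝔴.bDnC.opE (ZMod p) ψ) := by
  have e1 : (bUpC N q).opE (ZMod p) φ = 𝔴.corr.opE (ZMod p) ((aUpC N q).opE (ZMod p) φ) :=
    Subtype.ext (𝔴.bUp_eq (φ : Additive (Gamma0 N) →+ ZMod p))
  have e2 : 𝔴.corr.opE (ZMod p) (𝔴.corr.opE (ZMod p) ((aUpC N q).opE (ZMod p) φ)) =
      (aUpC N q).opE (ZMod p) φ := Subtype.ext (𝔴.w_w _)
  have e3 : 𝔴.bDnC.opE (ZMod p) ψ = (aDnC N q).opE (ZMod p) (𝔴.corr.opE (ZMod p) ψ) :=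
    Subtype.ext (𝔴.bDnC_op (ψ : Additive (Gamma0 (N * q)) →+ ZMod p))
  rw [e1, ← form_w_w p 𝔴, e2, form_aUp_left, e3]

/-- `T_q` (`q ∤ N`) is self-adjoint. -/
theorem form_T (hqN : ¬ q ∣ N) (φ ψ : ellParHoms (Gamma0 N) (ZMod p)) :
    P.form (Gamma0 N) (ZMod p) ((repsT q hqN).toCorr.opE (ZMod p) φ) ψ =
      P.form (Gamma0 N) (ZMod p) φ ((repsT q hqN).toCorr.opE (ZMod p) ψ) := by
  obtain ⟨𝔴⟩ := nonempty_AL (N := N) (q := q) hqN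
  have eT : ∀ χ : ellParHoms (Gamma0 N) (ZMod p), (repsT q hqN).toCorr.opE (ZMod p) χ =
      (aDnC N q).opE (ZMod p) ((bUpC N q).opE (ZMod p) χ) := fun χ =>
    Subtype.ext (by
      rw [Corr.coe_opE, Corr.coe_opE, Corr.coe_opE, Reps.toCorr_op, aDn_bUp hqN])
  have e3 : 𝔴.bDnC.opE (ZMod p) ((aUpC N q).opE (ZMod p) ψ) =
      (aDnC N q).opE (ZMod p) ((bUpC N q).opE (ZMod p) ψ) :=
    Subtype.ext (by
      rw [Corr.coe_opE, Corr.coe_opE, Corr.coe_opE, Corr.coe_opE, 𝔴.bDnC_op, ← 𝔴.bUp_eq])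
  rw [eT φ, eT ψ, ← form_aUp_right, form_bUp_left p 𝔴, e3]

theorem form_nondeg' (M : ℕ) [NeZero M] (hp2 : p ≠ 2) (φ : ellParHoms (Gamma0 M) (ZMod p))
    (h : ∀ ψ, P.form (Gamma0 M) (ZMod p) φ ψ = 0) : φ = 0 := by
  refine P.form_nondeg ?_ ?_ φ h
  · intro h2
    have h3 : ((2 : ℕ) : ZMod p) = 0 := by exact_mod_cast h2
    rw [ZMod.natCast_eq_zero_iff] at h3
    exact hp2 ((Nat.prime_dvd_prime_iff_eq Fact.out Nat.prime_two).mp h3)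
  · rw [Gamma0_mem]
    simp

end Fermat.Agent.S41.K
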