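import Fermat.Agent.S41.D.Basic

/-!
# S41, module K, file Red: reduction mod `p` of the lattices
-/

set_option autoImplicit false

open CongruenceSubgroup Matrix.SpecialLinearGroup
open scoped MatrixGroups
open Fermat.Agent.Lib.EllPar (KillsEllPar ellParHoms)
open Fermat.Agent.GR Fermat.Agent.GR.B

namespace Fermat.Agent.S41.K

/-- reduction mod `p`: `Λ(M) → Hom(Γ₀(M), 𝔽_p)`. -/
noncomputable def redL (M p : ℕ) [Fact p.Prime] : Lam M →+ ellParHoms (Gamma0 M) (ZMod p) where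
  toFun x := ⟨castHom M (ZMod p) x, kills_castHom (ZMod p) x⟩
  map_zero' := Subtype.ext (AddMonoidHom.ext fun γ => by simp)
  map_add' x y := Subtype.ext (AddMonoidHom.ext fun γ => by simp)

@[simp] theorem coe_redL (M p : ℕ) [Fact p.Prime] (x : Lam M) :
    ((redL M p x : ellParHoms (Gamma0 M) (ZMod p)) : Additive (Gamma0 M) →+ ZMod p) =
      castHom M (ZMod p) x := rfl

theorem redL_surjective (M p : ℕ) [NeZero M] [Fact p.Prime] : Function.Surjective (redL M p) := by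
  intro ψ
  obtain ⟨x, hx⟩ := exists_castHom_zmod_eq M p ψ.1 ψ.2
  exact ⟨x, Subtype.ext hx⟩

theorem redL_eq_zero (M p : ℕ) [NeZero M] [Fact p.Prime] (x : Lam M) (h : redL M p x = 0) :
    ∃ w : Lam M, x = (p : ℤ) • w :=
  (castHom_zmod_eq_zero_iff M p x).mp (congrArg Subtype.val h)

theorem redL_opL {M₁ M₂ : ℕ} (p : ℕ) [Fact p.Prime] (A : Corr (Gamma0 M₁) (Gamma0 M₂))
    (x : Lam M₂) : redL M₁ p (A.opL x) = A.opE (ZMod p) (redL M₂ p x) :=
  Subtype.ext (A.castHom_opL (ZMod p) x)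

theorem redL_heckeLam_T (M p : ℕ) [NeZero M] [Fact p.Prime] {ℓ : ℕ} [Fact ℓ.Prime]
    (hℓM : ¬ ℓ ∣ M) (x : Lam M) :
    redL M p (heckeLam M (H.HeckeFull.T Fact.out hℓM) x) =
      (repsT ℓ hℓM).toCorr.opE (ZMod p) (redL M p x) :=
  Subtype.ext (by
    rw [coe_redL, castHom_heckeLam_T, Corr.coe_opE, Reps.toCorr_op, coe_redL])

/-- `T_ℓ` on the lattice is the operator of the correspondence. -/
theorem heckeLam_T_eq (M : ℕ) [NeZero M] {ℓ : ℕ} [Fact ℓ.Prime] (hℓM : ¬ ℓ ∣ M) (x : Lam M) :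
    heckeLam M (H.HeckeFull.T Fact.out hℓM) x = (repsT ℓ hℓM).toCorr.opL x := by
  rw [heckeLam_T, repsP_of_not_dvd M hℓM]
  rfl

/-- `U_q` on the lattice is the operator of the correspondence. -/
theorem heckeLam_U_eq (M : ℕ) [NeZero M] {q : ℕ} [Fact q.Prime] (hqM : q ∣ M) (x : Lam M) :
    heckeLam M (genP M q Fact.out) x = (repsU q hqM).toCorr.opL x := by
  rw [heckeLam_genP, repsP_of_dvd M _ hqM]
  rfl

end Fermat.Agent.S41.K
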